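import Fermat.Agent.KolmogorovSinai.Generator
import Mathlib.Analysis.Convex.Jensen

/-!
# Entropy of a measure that need not be invariant

Bounds for the entropy of words, and concavity in the measure.
-/

set_option autoImplicit false

noncomputable section

open MeasureTheory Filter Topology Real
open FA.ShannonMcMillan (word measurable_word)
open FA.KolmogorovSinai

namespace FA.VariationalPrinciple

variable {α β ι : Type*} {mα : MeasurableSpace α}
  [Fintype β] [MeasurableSpace β] [MeasurableSingletonClass β]
  [Fintype ι] [MeasurableSpace ι] [MeasurableSingletonClass ι]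

/-- **The maximal entropy** of a function with finitely many values. -/
theorem entropy_le_log_card {μ : Measure α} [IsProbabilityMeasure μ] {X : α → β}
    (hX : Measurable X) : entropy μ X ≤ log (Fintype.card β) := by
  have : Nonempty α := nonempty_of_isProbabilityMeasure μ
  have hN : (0 : ℝ) < Fintype.card β :=
    Nat.cast_pos.2 (Fintype.card_pos_iff.2 ⟨X (Classical.arbitrary α)⟩)
  calc entropy μ X ≤ ∑ b, (μ.real (X ⁻¹' {b}) * log (Fintype.card β)
        + ((Fintype.card β : ℝ)⁻¹ - μ.real (X ⁻¹' {b}))) := Finset.sum_le_sum fun b _ => by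
        rcases (measureReal_nonneg (μ := μ) (s := X ⁻¹' {b})).eq_or_lt with h | h
        · rw [← h]
          simp [hN.le]
        have h1 := mul_le_mul_of_nonneg_left
          (log_le_sub_one_of_pos (inv_pos.2 (mul_pos hN h))) h.le
        rw [log_inv, log_mul hN.ne' h.ne', mul_sub_one, mul_inv, mul_comm (_⁻¹) (_⁻¹), ← mul_assoc,
          mul_inv_cancel₀ h.ne', one_mul] at h1
        rw [negMulLog]
        linarith
    _ = log (Fintype.card β) := by
        rw [Finset.sum_add_distrib, Finset.sum_sub_distrib, ← Finset.sum_mul,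
          sum_preimage_eq_one hX, Finset.sum_const, Finset.card_univ, nsmul_eq_mul,
          mul_inv_cancel₀ hN.ne', sub_self, add_zero, one_mul]

/-- A word is a function of two shorter ones. -/
theorem entropy_word_le_split {μ : Measure α} [IsProbabilityMeasure μ] {T : α → α}
    (hT : Measurable T) {P : α → ι} (hP : Measurable P) {n a b : ℕ} (h : n ≤ a + b) :
    entropy μ (word T P n) ≤ entropy μ (word T P a) + entropy μ (word T P b ∘ T^[a]) := by
  classical
  have hw := measurable_word (P := P) hT hP
  refine le_trans (le_of_eq_of_le (congrArg (entropy μ) ?_)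
    (entropy_comp_le ((hw a).prodMk ((hw b).comp (hT.iterate a)))
      fun (p : (Fin a → ι) × (Fin b → ι)) (j : Fin n) =>
        if hj : (j : ℕ) < a then p.1 ⟨j, hj⟩ else p.2 ⟨j - a, by omega⟩))
    (entropy_pair_le (hw a) ((hw b).comp (hT.iterate a)))
  funext x j
  by_cases hj : (j : ℕ) < a
  · simp [word, hj]
  · simp only [Function.comp_apply, dif_neg hj, word]
    rw [← Function.iterate_add_apply, Nat.sub_add_cancel (not_lt.1 hj)]

omit [MeasurableSingletonClass β] [MeasurableSpace β] in
/-- **The entropy is concave in the measure.** -/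
theorem sum_smul_entropy_le {κ : Type*} {s : Finset κ} {w : κ → ℝ} {νs : κ → Measure α}
    {μ : Measure α} (hw : ∀ j ∈ s, 0 ≤ w j) (hw1 : ∑ j ∈ s, w j = 1) (X : α → β)
    (hμ : ∀ b, μ.real (X ⁻¹' {b}) = ∑ j ∈ s, w j * (νs j).real (X ⁻¹' {b})) :
    ∑ j ∈ s, w j * entropy (νs j) X ≤ entropy μ X := by
  simp only [entropy, Finset.mul_sum]
  rw [Finset.sum_comm]
  refine Finset.sum_le_sum fun b _ => ?_
  rw [hμ b]
  simpa only [smul_eq_mul] using concaveOn_negMulLog.le_map_sum hw hw1
    (p := fun j => (νs j).real (X ⁻¹' {b})) fun j _ => Set.mem_Ici.2 measureReal_nonneg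

/-- A measurable choice among finitely many sets covering the space. -/
theorem exists_choice {N : ℕ} (O : Fin N → Set α) (hO : ∀ a, MeasurableSet (O a))
    (hcov : ∀ x, ∃ a, x ∈ O a) :
    ∃ c : α → Fin N, Measurable c ∧ (∀ x, x ∈ O (c x)) ∧
      ∀ x y, (∀ a, x ∈ O a ↔ y ∈ O a) → c x = c y := by
  classical
  rcases isEmpty_or_nonempty α with hα | hα
  · exact ⟨fun x => hα.elim x, measurable_of_empty _, fun x => hα.elim x,
      fun x => hα.elim x⟩
  have : Nonempty (Fin N) := ⟨(hcov (Classical.arbitrary α)).choose⟩
  let g : (Fin N → Prop) → Fin N := fun v =>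
    if h : ∃ a, v a then h.choose else Classical.arbitrary _
  refine ⟨fun x => g fun a => x ∈ O a, (measurable_of_finite g).comp
    (measurable_pi_iff.2 fun a => measurable_mem.2 (hO a)), fun x => ?_, fun x y h => ?_⟩
  · simp only [g, dif_pos (hcov x)]
    exact (hcov x).choose_spec
  · exact congrArg g (funext fun a => propext (h a))

end FA.VariationalPrinciple

end
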