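import Fermat.Agent.VariationalPrinciple.Basic
import Mathlib.Probability.Distributions.Uniform
import Mathlib.MeasureTheory.Measure.Portmanteau

/-!
# Misiurewicz's counting and averages along orbits

The entropy of the uniform measure on a separated set, the comparison of long words with short
ones, and the averages of a measure along the orbit.
-/

set_option autoImplicit false

noncomputable section

open MeasureTheory Filter Topology Real
open FA.ShannonMcMillan (word measurable_word)
open FA.KolmogorovSinai
open scoped ENNReal BoundedContinuousFunction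

namespace FA.VariationalPrinciple

variable {α β ι : Type*} {mα : MeasurableSpace α}
  [Fintype β] [MeasurableSpace β] [MeasurableSingletonClass β]
  [Fintype ι] [MeasurableSpace ι] [MeasurableSingletonClass ι]

/-- A labelling that is injective on a finite set has full entropy for its uniform measure. -/
theorem log_card_le_entropy {s : Finset α} (hs : s.Nonempty) {X : α → β} (hX : Measurable X)
    (hinj : Set.InjOn X s) :
    log s.card ≤ entropy (PMF.uniformOfFinset s hs).toMeasure X := by
  classical
  set ν := (PMF.uniformOfFinset s hs).toMeasure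
  have hS : (0 : ℝ) < s.card := Nat.cast_pos.2 hs.card_pos
  have hp : ∀ b, ν.real (X ⁻¹' {b}) ≤ (s.card : ℝ)⁻¹ := fun b => by
    rw [measureReal_def, PMF.toMeasure_uniformOfFinset_apply hs _ (hX (measurableSet_singleton b)),
      ENNReal.toReal_div, ENNReal.toReal_natCast, ENNReal.toReal_natCast, ← one_div]
    refine div_le_div_of_nonneg_right (Nat.cast_le_one.2 (Finset.card_le_one.2 ?_)) hS.le
    intro x hx y hy
    simp only [Finset.mem_filter, Set.mem_preimage, Set.mem_singleton_iff] at hx hy
    exact hinj hx.1 hy.1 (hx.2.trans hy.2.symm)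
  calc log s.card = ∑ b, ν.real (X ⁻¹' {b}) * log s.card := by
        rw [← Finset.sum_mul, sum_preimage_eq_one hX, one_mul]
    _ ≤ entropy ν X := Finset.sum_le_sum fun b _ => by
        rcases (measureReal_nonneg (μ := ν) (s := X ⁻¹' {b})).eq_or_lt with h | h
        · rw [← h]
          simp
        rw [negMulLog, neg_mul, ← mul_neg]
        refine mul_le_mul_of_nonneg_left ?_ h.le
        have h1 := log_le_log h (hp b)
        rw [log_inv] at h1
        linarith

/-- **Misiurewicz's lemma.** -/
theorem entropy_word_mul_le {μ : Measure α} [IsProbabilityMeasure μ] {T : α → α}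
    (hT : Measurable T) {P : α → ι} (hP : Measurable P) (n q : ℕ) :
    (q : ℝ) * entropy μ (word T P n) ≤ (q : ℝ) * (q * log (Fintype.card ι))
      + ∑ j ∈ Finset.range n, entropy μ (word T P q ∘ T^[j]) := by
  classical
  have : Nonempty α := nonempty_of_isProbabilityMeasure μ
  have : Nonempty ι := ⟨P (Classical.arbitrary α)⟩
  set f : ℕ → ℝ := fun i => entropy μ (word T P (n - i) ∘ T^[i])
  have hstep : ∀ i, f i ≤ entropy μ (word T P q ∘ T^[i]) + f (i + q) := by
    intro i
    have h := entropy_word_le_split (μ := μ) hT (hP.comp (hT.iterate i))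
      (n := n - i) (a := q) (b := n - (i + q)) (by omega)
    simp only [word_comp_iterate, Function.comp_assoc, ← Function.iterate_add] at h
    exact h
  have hshift : ∀ m, ∑ r ∈ Finset.range q, f r
      ≤ ∑ i ∈ Finset.range m, entropy μ (word T P q ∘ T^[i])
        + ∑ r ∈ Finset.range q, f (m + r) := by
    intro m
    induction m with
    | zero => simp
    | succ m ih =>
      have h1 := Finset.sum_range_succ' (fun r => f (m + r)) q
      have h2 := Finset.sum_range_succ (fun r => f (m + r)) q
      simp only [add_zero, ← add_assoc] at h1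
      rw [Finset.sum_range_succ]
      have h3 : ∀ r, f (m + 1 + r) = f (m + r + 1) := fun r => by rw [add_right_comm]
      simp only [h3]
      linarith [hstep m]
  have hzero : ∀ r, f (n + r) = 0 := fun r => by
    have h : ∀ w, (word T P (n - (n + r)) ∘ T^[n + r]) ⁻¹' {w} = Set.univ := fun w =>
      Set.eq_univ_of_forall fun x => funext fun j => absurd j.2 (by omega)
    simp [f, entropy, h]
  have hfirst : ∀ r ∈ Finset.range q,
      entropy μ (word T P n) ≤ q * log (Fintype.card ι) + f r := fun r hr => by
    refine (entropy_word_le_split hT hP (a := r) (b := n - r) (by omega)).trans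
      (add_le_add ?_ le_rfl)
    refine (entropy_le_log_card (measurable_word hT hP r)).trans ?_
    simp only [Fintype.card_fun, Fintype.card_fin, Nat.cast_pow, Real.log_pow]
    exact mul_le_mul_of_nonneg_right (Nat.cast_le.2 (Finset.mem_range.1 hr).le)
      (log_natCast_nonneg _)
  have h1 := Finset.sum_le_sum hfirst
  have h2 := hshift n
  simp only [Finset.sum_const, Finset.card_range, nsmul_eq_mul, Finset.sum_add_distrib] at h1
  simp only [hzero, Finset.sum_const_zero, add_zero] at h2
  linarith

/-- The average of the push-forwards of a measure along the first `n` iterates. -/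
def orbitAvg (T : α → α) (ν : Measure α) (n : ℕ) : Measure α :=
  (n : ℝ≥0∞)⁻¹ • ∑ j ∈ Finset.range n, ν.map T^[j]

theorem isProbabilityMeasure_orbitAvg {T : α → α} (hT : Measurable T) {ν : Measure α}
    [IsProbabilityMeasure ν] {n : ℕ} (hn : n ≠ 0) : IsProbabilityMeasure (orbitAvg T ν n) := by
  refine ⟨?_⟩
  have h : ∀ j, (ν.map T^[j]) Set.univ = 1 := fun j => by
    rw [Measure.map_apply (hT.iterate j) MeasurableSet.univ, Set.preimage_univ, measure_univ]
  simp [orbitAvg, h, ENNReal.inv_mul_cancel (Nat.cast_ne_zero.2 hn) (ENNReal.natCast_ne_top n)]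

/-- **The averaged entropy.** -/
theorem sum_entropy_comp_iterate_le {T : α → α} (hT : Measurable T) {ν : Measure α}
    [IsProbabilityMeasure ν] {n : ℕ} (hn : n ≠ 0) {X : α → β} (hX : Measurable X) :
    ∑ j ∈ Finset.range n, entropy ν (X ∘ T^[j]) ≤ n * entropy (orbitAvg T ν n) X := by
  have hn0 : (0 : ℝ) < n := Nat.cast_pos.2 (Nat.pos_of_ne_zero hn)
  have h := sum_smul_entropy_le (s := Finset.range n) (w := fun _ => (n : ℝ)⁻¹)
    (νs := fun j => ν.map T^[j]) (μ := orbitAvg T ν n) (fun _ _ => by positivity)
    (by simp [hn0.ne']) X fun b => by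
      rw [orbitAvg, measureReal_ennreal_smul_apply, ENNReal.toReal_inv, ENNReal.toReal_natCast,
        ← Finset.mul_sum]
      congr 1
      simp only [measureReal_def, Measure.finsetSum_apply]
      exact ENNReal.toReal_sum fun j _ => measure_ne_top _ _
  have he : ∀ j, entropy ν (X ∘ T^[j]) = entropy (ν.map T^[j]) X := fun j =>
    entropy_map ⟨hT.iterate j, rfl⟩ hX
  simp only [he]
  rw [← Finset.mul_sum, inv_mul_le_iff₀ hn0] at h
  exact h

/-- **The averages are almost invariant.** -/
theorem abs_integral_orbitAvg_sub_le [TopologicalSpace α] [OpensMeasurableSpace α] {T : α → α}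
    (hT : Continuous T) (hTm : Measurable T) {ν : Measure α} [IsProbabilityMeasure ν] (n : ℕ)
    (f : α →ᵇ ℝ) :
    |∫ x, f (T x) ∂orbitAvg T ν n - ∫ x, f x ∂orbitAvg T ν n| ≤ 2 * ‖f‖ / n := by
  have hint : ∀ g : α →ᵇ ℝ, ∫ x, g x ∂orbitAvg T ν n =
      (n : ℝ)⁻¹ * ∑ j ∈ Finset.range n, ∫ x, g (T^[j] x) ∂ν := fun g => by
    rw [orbitAvg, integral_smul_measure, ENNReal.toReal_inv, ENNReal.toReal_natCast, smul_eq_mul,
      integral_finsetSum_measure fun j _ => g.integrable _]
    congr 1
    exact Finset.sum_congr rfl fun j _ => integral_map (hTm.iterate j).aemeasurable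
      g.continuous.stronglyMeasurable.aestronglyMeasurable
  have hTf := hint (f.compContinuous ⟨T, hT⟩)
  simp only [BoundedContinuousFunction.compContinuous_apply, ContinuousMap.coe_mk,
    ← Function.iterate_succ_apply'] at hTf
  rw [hTf, hint f, ← mul_sub, ← Finset.sum_sub_distrib,
    Finset.sum_range_sub (fun j => ∫ x, f (T^[j] x) ∂ν), abs_mul, div_eq_inv_mul,
    abs_of_nonneg (by positivity : (0 : ℝ) ≤ (n : ℝ)⁻¹)]
  refine mul_le_mul_of_nonneg_left ?_ (by positivity)
  have hb : ∀ j : ℕ, |∫ x, f (T^[j] x) ∂ν| ≤ ‖f‖ := fun j =>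
    (norm_integral_le_of_norm_le_const (C := ‖f‖)
      (Eventually.of_forall fun x => f.norm_coe_le_norm _)).trans (by simp)
  rw [two_mul]
  exact (abs_sub _ _).trans (add_le_add (hb n) (hb 0))

end FA.VariationalPrinciple

end
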