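import Fermat.Agent.VariationalPrinciple.Basic
import Mathlib.Dynamics.TopologicalEntropy.NetEntropy
import Mathlib.MeasureTheory.Measure.Regular
import Mathlib.Topology.MetricSpace.Thickening

/-!
# The entropy of an invariant measure is at most the topological entropy

A labelling agrees, outside a set of small entropy, with one that is locally constant on a compact
set, and the words of the latter are determined by the centres of a dynamical cover.
-/

set_option autoImplicit false

noncomputable section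

open MeasureTheory Filter Topology Real
open FA.ShannonMcMillan (word measurable_word)
open FA.KolmogorovSinai

namespace FA.VariationalPrinciple

/-- The entourage of pairs at distance less than `ε`. -/
def closeRel (X : Type*) [PseudoMetricSpace X] (ε : ℝ) : SetRel X X := {p | dist p.1 p.2 < ε}

variable {X : Type*} [MetricSpace X]

theorem mem_closeRel {ε : ℝ} {x y : X} : (x, y) ∈ closeRel X ε ↔ dist x y < ε := Iff.rfl

theorem closeRel_mem_uniformity {ε : ℝ} (hε : 0 < ε) : closeRel X ε ∈ uniformity X :=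
  Metric.dist_mem_uniformity hε

/-- Disjoint compact sets lie a positive distance apart. -/
theorem exists_separation {k : ℕ} {B : Fin k → Set X} (hB : ∀ i, IsCompact (B i))
    (hd : Pairwise fun i j => Disjoint (B i) (B j)) :
    ∃ r > 0, ∀ i j, ∀ x ∈ B i, ∀ y ∈ B j, dist x y < r → i = j := by
  have h : ∀ i j, ∀ᶠ r in 𝓝[>] (0 : ℝ), ∀ x ∈ B i, ∀ y ∈ B j, dist x y < r → i = j := by
    intro i j
    rcases eq_or_ne i j with rfl | hij
    · exact Eventually.of_forall fun r x _ y _ _ => rfl
    obtain ⟨δ, hδ, hdis⟩ := (hd hij).exists_thickenings (hB i) (hB j).isClosed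
    filter_upwards [Ioo_mem_nhdsGT hδ] with r hr x hx y hy hxy
    exact absurd (Metric.self_subset_thickening hδ _ hy) (Set.disjoint_left.1 hdis
      (Metric.mem_thickening_iff.2 ⟨x, hx, by rw [dist_comm]; exact hxy.trans hr.2⟩))
  obtain ⟨r, hr, hr0⟩ := ((eventually_all.2 fun i => eventually_all.2 (h i)).and
    self_mem_nhdsWithin).exists
  exact ⟨r, hr0, hr⟩

variable [MeasurableSpace X] [BorelSpace X] [CompactSpace X] {μ : Measure X}
  [IsProbabilityMeasure μ]

/-- **An error label of small entropy.** -/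
theorem exists_small_error {k : ℕ} {P : X → Fin k} (hP : Measurable P) {δ : ℝ} (hδ : 0 < δ) :
    ∃ B : Fin k → Set X, (∀ i, IsCompact (B i)) ∧ (∀ i, ∀ x ∈ B i, P x = i) ∧
      ∃ D : X → Fin (k + 1), Measurable D ∧ entropy μ D ≤ δ ∧
        (∀ x, D x = 0 → x ∈ B (P x)) ∧ ∀ x, D x ≠ 0 → D x = (P x).succ := by
  classical
  have h0 : ∀ᶠ p in 𝓝 (0 : ℝ), negMulLog p < δ / (2 * (k + 1)) :=
    continuous_negMulLog.continuousAt.eventually_lt_const (by rw [negMulLog_zero]; positivity)
  obtain ⟨η₀, hη₀, hη⟩ := Metric.eventually_nhds_iff.1 h0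
  set η := min (η₀ / 2) (δ / (2 * (k + 1))) with hηdef
  have hηpos : 0 < η := lt_min (half_pos hη₀) (by positivity)
  choose B hBsub hBcl hBlt using fun i : Fin k =>
    (hP (measurableSet_singleton i)).exists_isClosed_sdiff_lt (μ := μ) (measure_ne_top μ _)
      (ENNReal.ofReal_pos.2 hηpos).ne'
  have hBP : ∀ i, ∀ x ∈ B i, P x = i := fun i x hx => hBsub i hx
  refine ⟨B, fun i => (hBcl i).isCompact, hBP,
    fun x => if x ∈ B (P x) then 0 else (P x).succ, ?_⟩
  set D : X → Fin (k + 1) := fun x => if x ∈ B (P x) then 0 else (P x).succ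
  have hset : ∀ i, D ⁻¹' {i.succ} = P ⁻¹' {i} \ B i := fun i => by
    ext x
    simp only [D, Set.mem_preimage, Set.mem_singleton_iff, Set.mem_sdiff]
    split_ifs with hx
    · exact iff_of_false (Fin.succ_ne_zero i).symm fun h => h.2 (h.1 ▸ hx)
    · rw [Fin.succ_inj]
      exact ⟨fun h => ⟨h, h ▸ hx⟩, fun h => h.1⟩
  have hDm : Measurable D := by
    refine Measurable.ite ?_ measurable_const ((measurable_of_finite Fin.succ).comp hP)
    have : {x | x ∈ B (P x)} = ⋃ i, B i := by
      ext x
      simp only [Set.mem_ofPred_eq, Set.mem_iUnion]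
      exact ⟨fun h => ⟨_, h⟩, fun ⟨i, h⟩ => (hBP i x h).symm ▸ h⟩
    rw [this]
    exact MeasurableSet.iUnion fun i => (hBcl i).measurableSet
  have hsmall : ∀ i : Fin k, μ.real (D ⁻¹' {i.succ}) ≤ η := fun i => by
    rw [hset i]
    exact ENNReal.toReal_le_of_le_ofReal hηpos.le (hBlt i).le
  refine ⟨hDm, ?_, fun x hx => ?_, fun x hx => ?_⟩
  · rw [entropy, Fin.sum_univ_succ]
    have h1 := sum_preimage_eq_one (μ := μ) hDm
    rw [Fin.sum_univ_succ] at h1
    have h2 : ∑ i : Fin k, μ.real (D ⁻¹' {i.succ}) ≤ k * η :=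
      (Finset.sum_le_sum fun i _ => hsmall i).trans_eq (by simp)
    have h3 : ∑ i : Fin k, negMulLog (μ.real (D ⁻¹' {i.succ})) ≤ k * (δ / (2 * (k + 1))) := by
      refine (Finset.sum_le_sum fun i _ => (hη ?_).le).trans_eq (by simp)
      rw [Real.dist_eq, sub_zero, abs_of_nonneg measureReal_nonneg]
      exact ((hsmall i).trans (min_le_left _ _)).trans_lt (half_lt_self hη₀)
    have h4 := negMulLog_le_one_sub_self (measureReal_nonneg (μ := μ) (s := D ⁻¹' {0}))
    have h5 : (k : ℝ) * η ≤ k * (δ / (2 * (k + 1))) :=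
      mul_le_mul_of_nonneg_left (min_le_right _ _) k.cast_nonneg
    have h6 : (k : ℝ) * (δ / (2 * (k + 1))) ≤ δ / 2 := by
      rw [← mul_div_assoc, div_le_div_iff₀ (by positivity) two_pos]
      nlinarith
    linarith
  · by_contra h
    simp only [D, if_neg h, Fin.succ_ne_zero] at hx
  · simp only [D] at hx ⊢
    split_ifs with h
    · exact absurd (if_pos h) hx
    · rfl

omit [CompactSpace X] in
/-- **The words of a labelling against a dynamical cover.** -/
theorem entropy_word_le_log_card_add {T : X → X} (hTc : Continuous T)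
    (hT : MeasurePreserving T μ μ) {k : ℕ} {P : X → Fin k} {B : Fin k → Set X} {r : ℝ}
    (hr : ∀ i j, ∀ x ∈ B i, ∀ y ∈ B j, dist x y < r → i = j) {D : X → Fin (k + 1)}
    (hD : Measurable D) (hD0 : ∀ x, D x = 0 → x ∈ B (P x))
    (hD1 : ∀ x, D x ≠ 0 → D x = (P x).succ) {n : ℕ} {s : Finset X}
    (hs : Dynamics.IsDynCoverOf T Set.univ (closeRel X (r / 2)) n (s : Set X)) :
    entropy μ (word T P n) ≤ log s.card + n * entropy μ D := by
  classical
  have : Nonempty X := nonempty_of_isProbabilityMeasure μ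
  set e := s.equivFin.symm
  let O : Fin s.card → Set X := fun a =>
    ⋂ j : Fin n, {x | dist (T^[(j : ℕ)] x) (T^[(j : ℕ)] (e a)) < r / 2}
  have hO : ∀ a, MeasurableSet (O a) := fun a => (isOpen_iInter_of_finite fun j : Fin n =>
    isOpen_lt ((hTc.iterate j).dist continuous_const) continuous_const).measurableSet
  obtain ⟨c, hc, hmem, -⟩ := exists_choice O hO fun x => by
    obtain ⟨y, hy, hxy⟩ := hs (Set.mem_univ x)
    refine ⟨e.symm ⟨y, hy⟩, Set.mem_iInter.2 fun j => ?_⟩
    simpa [closeRel] using Dynamics.mem_dynEntourage.1 hxy j j.2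
  let x₀ : X := Classical.arbitrary X
  let G : X → Fin k := fun z =>
    if h : ∃ i, ∃ y ∈ B i, dist y z < r / 2 then h.choose else P x₀
  let H : Fin (k + 1) → X → Fin k := fun d z => if h : d = 0 then G z else d.pred h
  let F : Fin s.card × (Fin n → Fin (k + 1)) → (Fin n → Fin k) := fun p j =>
    H (p.2 j) (T^[(j : ℕ)] (e p.1))
  have hF : word T P n = F ∘ fun x => (c x, word T D n x) := by
    funext x j
    show P (T^[(j : ℕ)] x) = H (D (T^[(j : ℕ)] x)) (T^[(j : ℕ)] (e (c x)))
    simp only [H]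
    by_cases h : D (T^[(j : ℕ)] x) = 0
    · rw [dif_pos h]
      have hx := hD0 _ h
      have hd : dist (T^[(j : ℕ)] x) (T^[(j : ℕ)] (e (c x))) < r / 2 := Set.mem_iInter.1 (hmem x) j
      have hex : ∃ i, ∃ y ∈ B i, dist y (T^[(j : ℕ)] (e (c x))) < r / 2 := ⟨_, _, hx, hd⟩
      simp only [G, dif_pos hex]
      obtain ⟨y, hy, hyd⟩ := hex.choose_spec
      refine hr _ _ _ hx _ hy ?_
      linarith [dist_triangle_right (T^[(j : ℕ)] x) y (T^[(j : ℕ)] (e (c x)))]
    · rw [dif_neg h]
      simp only [hD1 _ h, Fin.pred_succ]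
  calc entropy μ (word T P n) ≤ entropy μ (fun x => (c x, word T D n x)) :=
      le_of_eq_of_le (congrArg (entropy μ) hF)
        (entropy_comp_le (hc.prodMk (measurable_word hT.measurable hD n)) F)
    _ ≤ entropy μ c + entropy μ (word T D n) :=
      entropy_pair_le hc (measurable_word hT.measurable hD n)
    _ ≤ log s.card + n * entropy μ D :=
      add_le_add (by simpa using entropy_le_log_card (μ := μ) hc) (entropy_word_le_mul hT hD n)

/-- The rate of a labelling is at most any real number above the topological entropy. -/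
theorem rate_le_of_coverEntropy_lt {T : X → X} (hTc : Continuous T)
    (hT : MeasurePreserving T μ μ) {k : ℕ} {P : X → Fin k} (hP : Measurable P) {a : ℝ}
    (ha : Dynamics.coverEntropy T Set.univ < a) : rate μ T P ≤ a := by
  refine le_of_forall_pos_le_add fun δ hδ => ?_
  obtain ⟨B, hB, hBP, D, hD, hDδ, hD0, hD1⟩ := exists_small_error (μ := μ) hP hδ
  obtain ⟨r, hr0, hr⟩ := exists_separation hB fun i j hij => Set.disjoint_left.2 fun x hi hj =>
    hij ((hBP i x hi).symm.trans (hBP j x hj))
  have hU := closeRel_mem_uniformity (X := X) (half_pos hr0)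
  have hev := ExpGrowth.eventually_le_exp
    ((Dynamics.coverEntropyEntourage_le_coverEntropy T Set.univ hU).trans_lt ha)
  refine le_of_tendsto (tendsto_rate hT hP) ?_
  filter_upwards [hev, eventually_ge_atTop 1] with n hn hn1
  obtain ⟨s, hs, hscard⟩ := (Dynamics.coverMincard_finite_iff T Set.univ _ n).1
    (Dynamics.coverMincard_finite_of_isCompact_invariant isCompact_univ (Set.mapsTo_univ _ _) hU n)
  rw [← hscard, ENat.toENNReal_coe, ← EReal.coe_coe_eq_natCast, ← EReal.coe_mul, EReal.exp_coe,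
    ← ENNReal.ofReal_natCast, ENNReal.ofReal_le_ofReal_iff (exp_pos _).le] at hn
  have : Nonempty X := nonempty_of_isProbabilityMeasure μ
  have hs0 : 0 < s.card := Finset.card_pos.2 (Finset.coe_nonempty.1 (hs.nonempty Set.univ_nonempty))
  rw [div_le_iff₀ (Nat.cast_pos.2 hn1)]
  have h1 := entropy_word_le_log_card_add hTc hT hr hD hD0 hD1 hs
  have h2 := (log_le_iff_le_exp (Nat.cast_pos.2 hs0)).2 hn
  nlinarith [(n.cast_nonneg : (0 : ℝ) ≤ n)]

/-- **Goodwyn's inequality.** -/
theorem ksEntropy_le_coverEntropy {T : X → X} (hTc : Continuous T)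
    (hT : MeasurePreserving T μ μ) :
    (ksEntropy μ T : EReal) ≤ Dynamics.coverEntropy T Set.univ := by
  have : Nonempty X := nonempty_of_isProbabilityMeasure μ
  rw [← EReal.coe_toENNReal (Dynamics.coverEntropy_nonneg T Set.univ_nonempty),
    EReal.coe_ennreal_le_coe_ennreal_iff]
  refine iSup₂_le fun k P => iSup_le fun hP => ?_
  rw [← EReal.coe_ennreal_le_coe_ennreal_iff,
    EReal.coe_toENNReal (Dynamics.coverEntropy_nonneg T Set.univ_nonempty),
    EReal.coe_ennreal_ofReal, max_eq_left (rate_nonneg hT hP)]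
  exact EReal.le_of_forall_lt_iff_le.1 fun a ha =>
    EReal.coe_le_coe_iff.2 (rate_le_of_coverEntropy_lt hTc hT hP ha)

end FA.VariationalPrinciple

end
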