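import Fermat.Agent.VariationalPrinciple.Averages
import Fermat.Agent.VariationalPrinciple.Upper
import Mathlib.MeasureTheory.Measure.Prokhorov
import Mathlib.MeasureTheory.Measure.HasOuterApproxClosed

/-!
# Invariant measures of large entropy

A limit of orbit averages of the uniform measures on separated sets is invariant, and its entropy
is at least the growth rate of these sets.
-/

set_option autoImplicit false

noncomputable section

open MeasureTheory Filter Topology Real
open FA.ShannonMcMillan (word measurable_word)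
open FA.KolmogorovSinai
open scoped ENNReal BoundedContinuousFunction

namespace FA.VariationalPrinciple

variable {X : Type*} [MetricSpace X] [CompactSpace X] [MeasurableSpace X] [BorelSpace X]

/-- **A partition into small pieces with null boundary.** -/
theorem exists_null_partition (μ : Measure X) [IsProbabilityMeasure μ] {ε : ℝ} (hε : 0 < ε) :
    ∃ (k : ℕ) (P : X → Fin k), Measurable P ∧ (∀ x y, P x = P y → dist x y < ε) ∧
      ∃ N : Set X, MeasurableSet N ∧ μ N = 0 ∧ ∀ x ∉ N, ∀ᶠ y in 𝓝 x, P y = P x := by
  classical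
  choose r hr hnull using fun x : X =>
    exists_null_frontier_thickening μ {x} (by linarith : ε / 4 < ε / 2)
  simp only [Metric.thickening_singleton] at hnull
  obtain ⟨t, -, ht⟩ := isCompact_univ.elim_nhds_subcover (fun x => Metric.ball x (r x))
    fun x _ => Metric.ball_mem_nhds x (by linarith [(hr x).1])
  set e := t.equivFin.symm
  obtain ⟨c, hc, hmem, hcongr⟩ := exists_choice (fun a => Metric.ball (e a : X) (r (e a)))
    (fun a => Metric.isOpen_ball.measurableSet) fun x => by
      obtain ⟨y, hy, hxy⟩ := Set.mem_iUnion₂.1 (ht (Set.mem_univ x))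
      exact ⟨e.symm ⟨y, hy⟩, by simpa using hxy⟩
  refine ⟨t.card, c, hc, fun x y hxy => ?_, ⋃ a, frontier (Metric.ball (e a : X) (r (e a))),
    MeasurableSet.iUnion fun a => isClosed_frontier.measurableSet,
    measure_iUnion_null fun a => hnull _, fun x hx => ?_⟩
  · have hy := hmem y
    rw [← hxy] at hy
    exact (dist_triangle_right x y _).trans_lt
      (by linarith [Metric.mem_ball.1 (hmem x), Metric.mem_ball.1 hy, (hr (e (c x))).2])
  · have hev : ∀ᶠ y in 𝓝 x, ∀ a : Fin t.card,
        (y ∈ Metric.ball (e a : X) (r (e a)) ↔ x ∈ Metric.ball (e a : X) (r (e a))) := by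
      refine eventually_all.2 fun a => ?_
      have ha := fun h => hx (Set.mem_iUnion.2 ⟨a, h⟩)
      rw [frontier_eq_closure_inter_closure] at ha
      by_cases hxa : x ∈ Metric.ball (e a : X) (r (e a))
      · filter_upwards [Metric.isOpen_ball.mem_nhds hxa] with y hy
        exact iff_of_true hy hxa
      · have : x ∉ closure (Metric.ball (e a : X) (r (e a))) :=
          fun h => ha ⟨h, subset_closure hxa⟩
        filter_upwards [isClosed_closure.isOpen_compl.mem_nhds this] with y hy
        exact iff_of_false (fun h => hy (subset_closure h)) hxa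
    exact hev.mono fun y hy => hcongr y x hy

omit [CompactSpace X] [BorelSpace X] in
/-- The boundary of a word is null. -/
theorem measure_frontier_word {μ : Measure X} {T : X → X} (hTc : Continuous T)
    (hT : MeasurePreserving T μ μ) {k : ℕ} {P : X → Fin k} {N : Set X} (hNm : MeasurableSet N)
    (hN : μ N = 0) (hloc : ∀ x ∉ N, ∀ᶠ y in 𝓝 x, P y = P x) (q : ℕ) (w : Fin q → Fin k) :
    μ (frontier (word T P q ⁻¹' {w})) = 0 := by
  refine measure_mono_null (t := ⋃ j : Fin q, T^[(j : ℕ)] ⁻¹' N) (fun x hx => ?_)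
    (measure_iUnion_null fun j => by
      rw [(hT.iterate j).measure_preimage hNm.nullMeasurableSet, hN])
  by_contra h
  simp only [Set.mem_iUnion, Set.mem_preimage, not_exists] at h
  have hev : ∀ᶠ y in 𝓝 x, word T P q y = word T P q x :=
    (eventually_all.2 fun j : Fin q =>
      ((hTc.iterate (j : ℕ)).continuousAt.eventually (hloc _ (h j)))).mono fun y hy => funext hy
  rw [frontier_eq_closure_inter_closure, Set.mem_inter_iff, mem_closure_iff_nhds,
    mem_closure_iff_nhds] at hx
  obtain ⟨y, hy, hyw⟩ := hx.1 _ hev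
  obtain ⟨z, hz, hzw⟩ := hx.2 _ hev
  exact hzw (Set.mem_singleton_iff.2 ((hz.trans hy.symm).trans hyw))

/-- **An invariant measure of entropy at least the growth of separated sets.** -/
theorem exists_measure_ge {T : X → X} (hT : Continuous T) {ε : ℝ} (hε : 0 < ε) {a : ℝ}
    (ha : (a : EReal) < Dynamics.netEntropyEntourage T Set.univ (closeRel X ε)) :
    ∃ μ : Measure X, IsProbabilityMeasure μ ∧ MeasurePreserving T μ μ ∧
      (a : EReal) ≤ (ksEntropy μ T : EReal) := by
  classical
  have : (closeRel X ε).IsSymm := ⟨fun x y (h : dist x y < ε) => by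
    show dist y x < ε
    rwa [dist_comm]⟩
  have : (closeRel X ε).IsRefl := ⟨fun x => by
    show dist x x < ε
    rwa [dist_self]⟩
  have hU := closeRel_mem_uniformity (X := X) hε
  -- separated sets of exponential size, along a sequence of times
  have hfreq : ∃ᶠ n : ℕ in atTop, n ≠ 0 ∧ ∃ s : Finset X,
      Dynamics.IsDynNetIn T Set.univ (closeRel X ε) n (s : Set X) ∧ exp (a * n) ≤ s.card := by
    refine ((ExpGrowth.frequently_exp_le ha).and_eventually (eventually_ne_atTop 0)).mono ?_
    rintro n ⟨hn, hn0⟩
    obtain ⟨s, hs, hcard⟩ := (Dynamics.netMaxcard_finite_iff T Set.univ _ n).1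
      ((Dynamics.netMaxcard_le_coverMincard T Set.univ n).trans_lt
        (Dynamics.coverMincard_finite_of_isCompact_invariant isCompact_univ
          (Set.mapsTo_univ _ _) hU n))
    refine ⟨hn0, s, hs, ?_⟩
    rwa [← hcard, ENat.toENNReal_coe, ← EReal.coe_coe_eq_natCast, ← EReal.coe_mul, EReal.exp_coe,
      ← ENNReal.ofReal_natCast, ENNReal.ofReal_le_ofReal_iff s.card.cast_nonneg] at hn
  obtain ⟨φ, hφ, hφs⟩ := extraction_of_frequently_atTop hfreq
  choose hφ0 s hs hcard using hφs
  have hne : ∀ i, (s i).Nonempty := fun i =>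
    Finset.card_pos.1 (Nat.cast_pos.1 ((exp_pos _).trans_le (hcard i)))
  -- the averages and their limit
  set ν : ℕ → Measure X := fun i => (PMF.uniformOfFinset (s i) (hne i)).toMeasure
  let μs : ℕ → ProbabilityMeasure X := fun i =>
    ⟨orbitAvg T (ν i) (φ i), isProbabilityMeasure_orbitAvg hT.measurable (hφ0 i)⟩
  set U : Ultrafilter ℕ := Ultrafilter.of atTop
  have hUle : (U : Filter ℕ) ≤ atTop := Ultrafilter.of_le _
  set μP : ProbabilityMeasure X := (U.map μs).lim
  have hlim : Tendsto μs U (𝓝 μP) := (U.map μs).le_nhds_lim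
  have hφU : Tendsto (fun i => (φ i : ℝ)) U atTop :=
    (tendsto_natCast_atTop_atTop.comp hφ.tendsto_atTop).mono_left hUle
  set μ : Measure X := (μP : Measure X)
  have hμT : MeasurePreserving T μ μ := by
    refine ⟨hT.measurable, ext_of_forall_integral_eq_of_IsFiniteMeasure fun f => ?_⟩
    rw [integral_map hT.measurable.aemeasurable
      f.continuous.stronglyMeasurable.aestronglyMeasurable]
    have h := ProbabilityMeasure.tendsto_iff_forall_integral_tendsto.1 hlim
    have h1 : Tendsto (fun i => ∫ x, f (T x) ∂(μs i : Measure X)) U (𝓝 (∫ x, f (T x) ∂μ)) :=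
      h (f.compContinuous ⟨T, hT⟩)
    have h2 : Tendsto (fun i => ∫ x, f (T x) ∂(μs i : Measure X) - ∫ x, f x ∂(μs i : Measure X))
        U (𝓝 0) :=
      squeeze_zero_norm (fun i => abs_integral_orbitAvg_sub_le hT hT.measurable (φ i) f)
        (hφU.const_div_atTop _)
    exact sub_eq_zero.1 (tendsto_nhds_unique (h1.sub (h f)) h2)
  refine ⟨μ, inferInstance, hμT, ?_⟩
  -- a partition with null boundary
  obtain ⟨k, P, hP, hdiam, N, hNm, hN, hloc⟩ := exists_null_partition μ hε
  have hinj : ∀ i, Set.InjOn (word T P (φ i)) (s i) := fun i x hx y hy hxy => by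
    by_contra hne'
    have hyx : y ∈ UniformSpace.ball x (Dynamics.dynEntourage T (closeRel X ε) (φ i)) :=
      Dynamics.mem_ball_dynEntourage.2 fun j hj => hdiam _ _ (congrFun hxy ⟨j, hj⟩)
    have hyy : y ∈ UniformSpace.ball y (Dynamics.dynEntourage T (closeRel X ε) (φ i)) :=
      Dynamics.mem_ball_dynEntourage.2 fun j _ => mem_closeRel.2 (by rwa [dist_self])
    exact Set.disjoint_left.1 ((hs i).2 hx hy hne') hyx hyy
  -- every window
  have hwindow : ∀ q : ℕ, (q : ℝ) * a ≤ entropy μ (word T P q) := by
    intro q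
    have hconv : Tendsto (fun i => entropy (μs i : Measure X) (word T P q)) U
        (𝓝 (entropy μ (word T P q))) :=
      tendsto_finsetSum _ fun w _ => (continuous_negMulLog.tendsto _).comp
        ((ENNReal.tendsto_toReal (measure_ne_top _ _)).comp
          (ProbabilityMeasure.tendsto_measure_of_null_frontier_of_tendsto' hlim
            (measure_frontier_word hT hμT hNm hN hloc q w)))
    have hbound : Tendsto (fun i => (q : ℝ) * (q * log (Fintype.card (Fin k))) / φ i
        + entropy (μs i : Measure X) (word T P q)) U (𝓝 (entropy μ (word T P q))) := by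
      simpa using (hφU.const_div_atTop ((q : ℝ) * (q * log (Fintype.card (Fin k))))).add hconv
    refine ge_of_tendsto' hbound fun i => ?_
    have hn : (0 : ℝ) < φ i := Nat.cast_pos.2 (Nat.pos_of_ne_zero (hφ0 i))
    have h1 : a * φ i ≤ entropy (ν i) (word T P (φ i)) :=
      ((le_log_iff_exp_le (Nat.cast_pos.2 (hne i).card_pos)).2 (hcard i)).trans
        (log_card_le_entropy (hne i) (measurable_word hT.measurable hP _) (hinj i))
    have h2 := entropy_word_mul_le (μ := ν i) hT.measurable hP (φ i) q
    have h3 : ∑ j ∈ Finset.range (φ i), entropy (ν i) (word T P q ∘ T^[j])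
        ≤ φ i * entropy (μs i : Measure X) (word T P q) :=
      sum_entropy_comp_iterate_le hT.measurable (hφ0 i) (measurable_word hT.measurable hP q)
    have h4 := mul_le_mul_of_nonneg_left h1 (Nat.cast_nonneg (α := ℝ) q)
    rw [div_add' _ _ _ hn.ne', le_div_iff₀ hn]
    linarith
  have hrate : a ≤ rate μ T P := ge_of_tendsto (tendsto_rate hμT hP)
    ((eventually_ge_atTop 1).mono fun q hq =>
      (le_div_iff₀ (Nat.cast_pos.2 hq)).2 ((mul_comm _ _).trans_le (hwindow q)))
  refine le_trans ?_ (EReal.coe_ennreal_le_coe_ennreal_iff.2 (ofReal_rate_le_ksEntropy hμT hP))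
  rw [EReal.coe_ennreal_ofReal]
  exact EReal.coe_le_coe_iff.2 (hrate.trans (le_max_left _ _))

/-- **The theorem of Krylov and Bogolyubov.** -/
theorem exists_invariant_measure [Nonempty X] {T : X → X} (hT : Continuous T) :
    ∃ μ : Measure X, IsProbabilityMeasure μ ∧ MeasurePreserving T μ μ := by
  obtain ⟨μ, hμ, hμT, -⟩ := exists_measure_ge hT one_pos (a := -1)
    ((EReal.coe_lt_coe_iff.2 (by norm_num : (-1 : ℝ) < 0)).trans_le
      (Dynamics.netEntropyEntourage_nonneg T Set.univ_nonempty _))
  exact ⟨μ, hμ, hμT⟩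

/-- **The variational principle.** -/
theorem coverEntropy_eq_iSup_ksEntropy [Nonempty X] {T : X → X} (hT : Continuous T) :
    Dynamics.coverEntropy T Set.univ =
      ⨆ (μ : Measure X) (_ : IsProbabilityMeasure μ) (_ : MeasurePreserving T μ μ),
        (ksEntropy μ T : EReal) := by
  refine le_antisymm ?_ (iSup_le fun μ => iSup₂_le fun hμ hμT => ksEntropy_le_coverEntropy hT hμT)
  rw [Dynamics.coverEntropy_eq_iSup_basis_netEntropyEntourage Metric.uniformity_basis_dist]
  refine iSup₂_le fun ε hε => EReal.ge_of_forall_gt_iff_ge.1 fun a ha => ?_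
  obtain ⟨μ, hμ, hμT, hge⟩ := exists_measure_ge hT hε ha
  exact hge.trans (le_iSup_of_le μ (le_iSup₂_of_le hμ hμT le_rfl))

end FA.VariationalPrinciple

end
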